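/-
S55 (Poitou-Tate): the concrete Galois set-up shared by the blocks L, B, R, G, F2.
Ambient group `GQ = Gal(Qbar/Q)`; level systems `Lall` (all finite levels), `LS S` (levels
unramified outside `S`); coefficient representations; places of `Qbar`.
A subfield `k ⊆ Qbar` is represented by the subgroup `V = k.fixingSubgroup ≤ GQ`;
the henselian local field of `k` at a place `𝒜` by `V ⊓ Dec 𝒜`.
-/
import Fermat.Agent.PT.Coh.Defs
import Fermat.Agent.Lib.Frobenius
import Fermat.Prelude.Def_GroupCohomology_ContinuousUnramified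

set_option autoImplicit false

open ExtCitation

noncomputable section

namespace Fermat.Agent.PT

abbrev Qbar : Type := AlgebraicClosure ℚ
abbrev GQ : Type := AlgebraicClosure ℚ ≃ₐ[ℚ] AlgebraicClosure ℚ

instance isGalois_Qbar : IsGalois ℚ Qbar := Fermat.Agent.Lib.Frobenius.isGalois_algebraicClosure inferInstance

theorem finiteIndex_fixingSubgroup' (F : IntermediateField ℚ Qbar) (hF : FiniteDimensional ℚ F) :
    F.fixingSubgroup.FiniteIndex := by
  refine ⟨?_⟩
  rw [← IntermediateField.finrank_eq_fixingSubgroup_index]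
  exact Module.finrank_pos.ne'

/-- All finite levels of `GQ` (normal ones). -/
def Lall : LevelSystem GQ where
  carrier := {U | U.Normal ∧ ∃ F : IntermediateField ℚ Qbar, FiniteDimensional ℚ F ∧
    U = F.fixingSubgroup}
  normal' := fun _ h => h.1
  finiteIndex' := by
    rintro _ ⟨_, F, hF, rfl⟩
    exact finiteIndex_fixingSubgroup' F hF
  nonempty' := ⟨(⊥ : IntermediateField ℚ Qbar).fixingSubgroup, by
    rw [IntermediateField.fixingSubgroup_bot]; infer_instance, ⊥, inferInstance, rfl⟩
  directed' := by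
    rintro _ ⟨hn, F, hF, rfl⟩ _ ⟨hn', F', hF', rfl⟩
    refine ⟨(F ⊔ F').fixingSubgroup, ⟨?_, F ⊔ F', IntermediateField.finiteDimensional_sup F F', rfl⟩,
      IntermediateField.fixingSubgroup_antitone le_sup_left,
      IntermediateField.fixingSubgroup_antitone le_sup_right⟩
    rw [IntermediateField.fixingSubgroup_sup]
    infer_instance

/-- The levels of `GQ` unramified outside `S` (normal ones): cohomology of `G_{Q,S}`. -/
def LS (S : Finset Nat.Primes) : LevelSystem GQ where
  carrier := {U | U.Normal ∧ ∃ F : IntermediateField ℚ Qbar, F.IsUnramifiedOutside S ∧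
    U = F.fixingSubgroup}
  normal' := fun _ h => h.1
  finiteIndex' := by
    rintro _ ⟨_, F, hF, rfl⟩
    exact finiteIndex_fixingSubgroup' F hF.1
  nonempty' := ⟨(⊥ : IntermediateField ℚ Qbar).fixingSubgroup, by
    rw [IntermediateField.fixingSubgroup_bot]; infer_instance, ⊥,
      IntermediateField.isUnramifiedOutside_bot S, rfl⟩
  directed' := by
    rintro _ ⟨hn, F, hF, rfl⟩ _ ⟨hn', F', hF', rfl⟩
    refine ⟨(F ⊔ F').fixingSubgroup, ⟨?_, F ⊔ F', hF.sup hF', rfl⟩,
      IntermediateField.fixingSubgroup_antitone le_sup_left,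
      IntermediateField.fixingSubgroup_antitone le_sup_right⟩
    rw [IntermediateField.fixingSubgroup_sup]
    infer_instance

theorem LS_le_Lall (S : Finset Nat.Primes) : LS S ≤ Lall := by
  rintro U ⟨hn, F, hF, rfl⟩
  exact ⟨hn, F, hF.1, rfl⟩

theorem LS_mono {S S' : Finset Nat.Primes} (h : S ⊆ S') : LS S ≤ LS S' := by
  rintro U ⟨hn, F, hF, rfl⟩
  exact ⟨hn, F, hF.mono h, rfl⟩

/-! ### coefficients -/

section Coeff

variable (p : ℕ) [Fact p.Prime]

/-- `F_p` with trivial action. -/
def trivRep : Representation (ZMod p) GQ (ZMod p) := Representation.trivial (ZMod p) GQ (ZMod p)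

/-- `F_p(1) ≅ μ_p`: `F_p` with the action through the mod `p` cyclotomic character. -/
def cycRep : Representation (ZMod p) GQ (ZMod p) := (trivRep p).twist (cycloChar p)

@[simp] lemma trivRep_apply (g : GQ) (a : ZMod p) : trivRep p g a = a := rfl

lemma cycRep_apply (g : GQ) (a : ZMod p) : cycRep p g a = (cycloChar p g : ZMod p) * a := rfl

/-- The open normal subgroup `G_{Q(μ_p)}` (index prime to `p`). -/
def G1 : Subgroup GQ := (cycloChar p).ker

end Coeff

/-- Forget the `k`-linear structure of a representation. -/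
def toZ {k G A : Type*} [CommRing k] [Group G] [AddCommGroup A] [Module k A]
    (ρ : Representation k G A) : Representation ℤ G A where
  toFun g := (ρ g).toAddMonoidHom.toIntLinearMap
  map_one' := by ext a; simp
  map_mul' g h := by ext a; simp

@[simp] lemma toZ_apply {k G A : Type*} [CommRing k] [Group G] [AddCommGroup A] [Module k A]
    (ρ : Representation k G A) (g : G) (a : A) : toZ ρ g a = ρ g a := rfl

/-- `Qbar^×` (written additively) as a `ℤ`-representation of `GQ`. -/
def multRep : Representation ℤ GQ (Additive Qbarˣ) where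
  toFun g := (MonoidHom.toAdditive (Units.map (g : Qbar →* Qbar))).toIntLinearMap
  map_one' := by ext a; rfl
  map_mul' g h := by ext a; rfl

@[simp] lemma multRep_apply (g : GQ) (x : Qbarˣ) :
    multRep g (Additive.ofMul x) = Additive.ofMul (Units.map (g : Qbar →* Qbar) x) := rfl

/-! ### places -/

/-- Places of `Qbar` are valuation subrings. -/
abbrev Place : Type := ValuationSubring Qbar

/-- `𝒜` is a finite place (lies over a rational prime). -/
def Place.IsFin (𝒜 : Place) : Prop := ∃ q : Nat.Primes, 𝒜.LiesOverPrime (q : ℕ)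

/-- `𝒜` lies over a prime of `S`. -/
def Place.OverS (𝒜 : Place) (S : Finset Nat.Primes) : Prop := ∃ q ∈ S, 𝒜.LiesOverPrime (q : ℕ)

/-- decomposition group of a place of `Qbar` -/
abbrev Dec (𝒜 : Place) : Subgroup GQ := 𝒜.decompositionSubgroup ℚ

/-- inertia group of a place of `Qbar` -/
abbrev Ine (𝒜 : Place) : Subgroup GQ := 𝒜.inertiaSubgroupIn ℚ

/-! ### Tate-Shafarevich groups in the relative model
`res` is the inclusion of complexes, so "locally trivial at `𝒜`" is a membership statement. -/

section Sha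

variable {A : Type*} [AddCommGroup A] {k : Type*} [CommRing k] [Module k A]

/-- `S`-smooth 1-cocycles of `V` which are locally trivial at all places over `S`. -/
def ShaZ1 (S : Finset Nat.Primes) (V : Subgroup GQ) (ρ : Representation k GQ A) :
    Submodule k (GQ → GQ → A) :=
  Z1 (LS S) V ρ ⊓ ⨅ (𝒜 : Place) (_ : 𝒜.OverS S), B1 Lall (V ⊓ Dec 𝒜) ρ

/-- `S`-smooth 2-cocycles of `V` which are locally trivial at all places over `S`. -/
def ShaZ2 (S : Finset Nat.Primes) (V : Subgroup GQ) (ρ : Representation k GQ A) :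
    Submodule k (GQ → GQ → GQ → A) :=
  Z2 (LS S) V ρ ⊓ ⨅ (𝒜 : Place) (_ : 𝒜.OverS S), B2 Lall (V ⊓ Dec 𝒜) ρ

/-- `Ш¹_S(V,ρ)`. -/
abbrev Sha1 (S : Finset Nat.Primes) (V : Subgroup GQ) (ρ : Representation k GQ A) : Type _ :=
  ShaZ1 S V ρ ⧸ (B1 (LS S) V ρ).submoduleOf (ShaZ1 S V ρ)

/-- `Ш²_S(V,ρ)`. -/
abbrev Sha2 (S : Finset Nat.Primes) (V : Subgroup GQ) (ρ : Representation k GQ A) : Type _ :=
  ShaZ2 S V ρ ⧸ (B2 (LS S) V ρ).submoduleOf (ShaZ2 S V ρ)

end Sha

end Fermat.Agent.PT

end
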